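import Fermat.Agent.SalemPowers.Conjugates
import Mathlib.NumberTheory.Real.Irrational
import Mathlib.Topology.Order.IntermediateValue
import Mathlib.Tactic.NormNum.Prime

/-!
# The Salem number of degree four

The root `> 1` of `X⁴ - X³ - X² - X + 1` is a Salem number.
-/

set_option autoImplicit false

noncomputable section

open Finset Polynomial ComplexConjugate

namespace FA.SalemPowers

/-- A root on the unit circle of `z² - c z + 1` for real `c` with `c² < 4`. -/
theorem norm_eq_one_of_quadratic {z : ℂ} {c : ℝ} (hc : c ^ 2 < 4)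
    (h : z ^ 2 - c * z + 1 = 0) : ‖z‖ = 1 := by
  have h1 := congrArg Complex.re h
  have h2 := congrArg Complex.im h
  simp [pow_two] at h1 h2
  have h3 : z.re * z.re + z.im * z.im = 1 := by
    have h4 : z.im * (2 * z.re - c) = 0 := by linarith
    rcases mul_eq_zero.1 h4 with h5 | h5
    · exfalso
      rw [h5] at h1
      nlinarith [sq_nonneg (2 * z.re - c)]
    · have : c = 2 * z.re := by linarith
      rw [this] at h1
      linarith
  rw [Complex.norm_def, Complex.normSq_apply, h3, Real.sqrt_one]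

/-- **Example.** -/
theorem isSalem_quartic : ∃ θ : ℝ, 1 < θ ∧ θ ^ 4 - θ ^ 3 - θ ^ 2 - θ + 1 = 0 ∧ IsSalem θ := by
  obtain ⟨θ, hθI, hθ0⟩ := intermediate_value_Ioo (by norm_num : (1 : ℝ) ≤ 2)
    (f := fun x => x ^ 4 - x ^ 3 - x ^ 2 - x + 1) (by fun_prop)
    (show (0 : ℝ) ∈ Set.Ioo _ _ by norm_num)
  simp only at hθ0
  have hθ1 := hθI.1
  have hθpos : 0 < θ := by linarith
  refine ⟨θ, hθ1, hθ0, ?_⟩
  set y := θ + θ⁻¹ with hy
  have hy2 : y ^ 2 - y - 3 = 0 := by
    rw [hy]
    field_simp
    linear_combination hθ0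
  have hy0 : 2 < y := by
    have h1 : y - 2 = (θ - 1) ^ 2 / θ := by rw [hy]; field_simp; ring
    have h2 : 0 < (θ - 1) ^ 2 / θ := div_pos (pow_pos (by linarith) 2) hθpos
    linarith
  have hmonic : (X ^ 4 - X ^ 3 - X ^ 2 - X + 1 : ℤ[X]).Monic := by
    monicity!
  have hint : IsIntegral ℤ θ := ⟨_, hmonic, by simp; linarith⟩
  have hroot : ∀ z : ℂ, aeval z (minpoly ℤ θ) = 0 →
      z ≠ (θ : ℂ) → z = (θ : ℂ)⁻¹ ∨ ‖z‖ = 1 := by
    intro z hz hne
    obtain ⟨q, hq⟩ := minpoly.isIntegrallyClosed_dvd hint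
      (show aeval θ (X ^ 4 - X ^ 3 - X ^ 2 - X + 1 : ℤ[X]) = 0 by simp; linarith)
    have h1 := congrArg (aeval z) hq
    rw [map_mul, hz, zero_mul] at h1
    simp at h1
    have hy2' : (y : ℂ) ^ 2 - y - 3 = 0 := by exact_mod_cast congrArg (fun x : ℝ => (x : ℂ)) hy2
    have h2 : (z ^ 2 - (y : ℂ) * z + 1) * (z ^ 2 - ((1 - y : ℝ) : ℂ) * z + 1) = 0 := by
      push_cast
      linear_combination h1 - z ^ 2 * hy2'
    rcases mul_eq_zero.1 h2 with h3 | h3
    · refine Or.inl ?_
      have h4 : (z - (θ : ℂ)) * (z - (θ : ℂ)⁻¹) = 0 := by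
        have h5 : (θ : ℂ) * (θ : ℂ)⁻¹ = 1 :=
          mul_inv_cancel₀ (Complex.ofReal_ne_zero.2 hθpos.ne')
        rw [hy] at h3
        push_cast at h3
        linear_combination h3 + h5
      exact (eq_of_sub_eq_zero ((mul_eq_zero.1 h4).resolve_left (sub_ne_zero.2 hne)))
    · exact Or.inr (norm_eq_one_of_quadratic (by nlinarith) h3)
  refine ⟨hθ1, hint, fun z hz hne => ?_, ?_⟩
  · rcases hroot z hz hne with rfl | h
    · rw [norm_inv, Complex.norm_real, Real.norm_eq_abs, abs_of_pos hθpos]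
      exact inv_le_one_of_one_le₀ hθ1.le
    · exact h.le
  · by_contra hno
    push Not at hno
    classical
    have hx : IsIntegral ℚ θ := hint.tower_top
    set R := ((minpoly ℚ θ).aroots ℂ).toFinset with hR
    have hmem : ∀ z, z ∈ R ↔ aeval z (minpoly ℤ θ) = 0 := fun z => by
      rw [hR, Multiset.mem_toFinset, mem_aroots,
        minpoly.isIntegrallyClosed_eq_field_fractions' ℚ hint, aeval_map_algebraMap]
      exact and_iff_right ((minpoly.monic hint).map _).ne_zero
    have hθR : (θ : ℂ) ∈ R := (hmem _).2 (by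
      rw [show (θ : ℂ) = algebraMap ℝ ℂ θ from rfl, aeval_algebraMap_apply, minpoly.aeval,
        map_zero])
    have hsub : R ⊆ {(θ : ℂ), (θ : ℂ)⁻¹} := fun z hz => by
      rw [Finset.mem_insert, Finset.mem_singleton]
      by_cases hne : z = (θ : ℂ)
      · exact Or.inl hne
      · exact Or.inr ((hroot z ((hmem z).1 hz) hne).resolve_right (hno z ((hmem z).1 hz)))
    obtain ⟨m, hm⟩ := sum_pow_roots_int hint 1
    simp only [pow_one, ← hR] at hm
    have hrat : ∃ q : ℚ, y = (q : ℝ) := by
      by_cases hi : (θ : ℂ)⁻¹ ∈ R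
      · rw [hsub.antisymm (Finset.insert_subset_iff.2 ⟨hθR, Finset.singleton_subset_iff.2 hi⟩),
          sum_pair ?_] at hm
        · refine ⟨m, ?_⟩
          have := congrArg Complex.re hm
          rw [← Complex.ofReal_inv, ← Complex.ofReal_add, Complex.ofReal_re,
            Complex.intCast_re] at this
          rw [hy, this, Rat.cast_intCast]
        · intro e
          rw [← Complex.ofReal_inv, Complex.ofReal_inj] at e
          have := inv_lt_one_of_one_lt₀ hθ1
          linarith
      · have hR1 : R = {(θ : ℂ)} := Finset.eq_singleton_iff_unique_mem.2 ⟨hθR, fun z hz => by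
          rcases Finset.mem_insert.1 (hsub hz) with h | h
          · exact h
          · exact absurd (Finset.mem_singleton.1 h ▸ hz) hi⟩
        rw [hR1, sum_singleton] at hm
        have := congrArg Complex.re hm
        simp only [Complex.ofReal_re, Complex.intCast_re] at this
        exact ⟨(m : ℚ) + (m : ℚ)⁻¹, by rw [hy, this]; push_cast; ring⟩
    obtain ⟨q, hq⟩ := hrat
    have hs : Irrational (Real.sqrt ((13 : ℕ) : ℝ)) :=
      Nat.Prime.irrational_sqrt (by norm_num)
    refine hs ⟨2 * q - 1, ?_⟩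
    rw [show ((13 : ℕ) : ℝ) = (2 * y - 1) ^ 2 by push_cast; linarith, Real.sqrt_sq (by linarith)]
    rw [hq]
    push_cast
    ring

end FA.SalemPowers

end
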