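import Mathlib.Analysis.Complex.Polynomial.Basic
import Mathlib.Analysis.SpecialFunctions.Complex.Arg
import Mathlib.FieldTheory.Normal.Basic
import Mathlib.FieldTheory.IntermediateField.Adjoin.Basic
import Mathlib.FieldTheory.Minpoly.IsIntegrallyClosed
import Mathlib.RingTheory.Polynomial.RationalRoot
import Mathlib.RingTheory.Trace.Basic
import Mathlib.Algebra.Polynomial.Reverse

/-!
# The conjugates of a Salem number

The unit conjugates of a Salem number `θ` have arguments which together with `π` are independent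
over `ℚ`, and `θ ^ n + θ ^ (-n) + ∑ 2 cos (2 π n t i)` is an integer.
-/

set_option autoImplicit false

noncomputable section

open Finset Polynomial ComplexConjugate
open scoped IntermediateField

namespace FA.SalemPowers

/-- A Salem number. -/
def IsSalem (θ : ℝ) : Prop :=
  1 < θ ∧ IsIntegral ℤ θ ∧
    (∀ z : ℂ, aeval z (minpoly ℤ θ) = 0 → z ≠ (θ : ℂ) → ‖z‖ ≤ 1) ∧
    ∃ z : ℂ, aeval z (minpoly ℤ θ) = 0 ∧ ‖z‖ = 1

/-- The power sums of the conjugates of an algebraic integer are integers. -/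
theorem sum_pow_roots_int {θ : ℝ} (hint : IsIntegral ℤ θ) (n : ℕ) :
    ∃ m : ℤ, ∑ z ∈ ((minpoly ℚ θ).aroots ℂ).toFinset, z ^ n = (m : ℂ) := by
  classical
  have hx : IsIntegral ℚ θ := hint.tower_top
  have : FiniteDimensional ℚ ℚ⟮θ⟯ := IntermediateField.adjoin.finiteDimensional hx
  set t : ℚ⟮θ⟯ := IntermediateField.AdjoinSimple.gen ℚ θ with ht
  have hti : IsIntegral ℤ (t ^ n) :=
    ((isIntegral_algebraMap_iff (algebraMap ℚ⟮θ⟯ ℝ).injective).1 hint).pow n
  obtain ⟨m, hm⟩ := IsIntegrallyClosed.isIntegral_iff.1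
    (Algebra.isIntegral_trace (L := ℚ) (F := ℚ⟮θ⟯) hti)
  refine ⟨m, ?_⟩
  have htr := trace_eq_sum_embeddings (K := ℚ) (L := ℚ⟮θ⟯) ℂ (x := t ^ n)
  rw [← hm, algebraMap_int_eq, eq_intCast, map_intCast] at htr
  rw [htr]
  have hroot : aeval t (minpoly ℚ θ) = 0 := by
    refine (algebraMap ℚ⟮θ⟯ ℝ).injective ?_
    rw [map_zero, ← aeval_algebraMap_apply]
    exact minpoly.aeval ℚ θ
  have hinj : Function.Injective fun σ : ℚ⟮θ⟯ →ₐ[ℚ] ℂ => σ t := fun σ τ he => by
    refine (IntermediateField.adjoin.powerBasis hx).algHom_ext ?_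
    rw [IntermediateField.adjoin.powerBasis_gen]
    exact he
  have hsub : (univ : Finset (ℚ⟮θ⟯ →ₐ[ℚ] ℂ)).image (fun σ => σ t) ⊆
      ((minpoly ℚ θ).aroots ℂ).toFinset := fun z hz => by
    obtain ⟨σ, -, rfl⟩ := Finset.mem_image.1 hz
    rw [Multiset.mem_toFinset, mem_aroots]
    exact ⟨minpoly.ne_zero hx, by rw [aeval_algHom_apply, hroot, map_zero]⟩
  have heq := Finset.eq_of_subset_of_card_le hsub (by
    rw [card_image_of_injective _ hinj, card_univ, AlgHom.card,
      IntermediateField.adjoin.finrank hx]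
    refine (Multiset.toFinset_card_le _).trans ((card_roots' _).trans ?_)
    rw [natDegree_map])
  rw [← heq, sum_image hinj.injOn]
  simp

/-- The structure of the conjugates. -/
theorem exists_angles {θ : ℝ} (h : IsSalem θ) :
    ∃ s : ℕ, 0 < s ∧ ∃ t : Fin s → ℝ,
      (∀ (m : Fin s → ℤ) (k : ℤ), ∑ i, (m i : ℝ) * t i = k → m = 0) ∧
      ∀ n : ℕ, ∃ m : ℤ,
        θ ^ n + θ⁻¹ ^ n + ∑ i, 2 * Real.cos (2 * Real.pi * (n * t i)) = (m : ℝ) := by
  classical
  obtain ⟨hθ, hint, hconj, z₀, hz₀, hz₀1⟩ := h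
  have hθ0 : θ ≠ 0 := by linarith
  have hx : IsIntegral ℚ θ := hint.tower_top
  set g := minpoly ℚ θ with hg
  have hgm : g.Monic := minpoly.monic hx
  have hgi : Irreducible g := minpoly.irreducible hx
  have hmap : ∀ z : ℂ, aeval z g = 0 ↔ aeval z (minpoly ℤ θ) = 0 := fun z => by
    rw [hg, minpoly.isIntegrallyClosed_eq_field_fractions' ℚ hint, aeval_map_algebraMap]
  have hmin : ∀ z : ℂ, aeval z g = 0 → minpoly ℚ z = g := fun z hz =>
    (minpoly.eq_of_irreducible_of_monic hgi hz hgm).symm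
  have hθroot : aeval (θ : ℂ) g = 0 := by
    rw [show (θ : ℂ) = algebraMap ℝ ℂ θ from rfl, aeval_algebraMap_apply, hg, minpoly.aeval,
      map_zero]
  have hzero : ∀ z : ℂ, aeval z g = 0 → z ≠ 0 := fun z hz e => by
    have h1 := hmin z hz
    rw [e, minpoly.zero] at h1
    have h2 := minpoly.aeval ℚ θ
    rw [← hg, ← h1, aeval_X] at h2
    exact hθ0 h2
  have hc : ∀ z : ℂ, aeval z g = 0 → aeval (conj z) g = 0 := fun z hz => by
    rw [show conj z = (Complex.conjAe.toAlgHom.restrictScalars ℚ) z from rfl, aeval_algHom_apply,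
      hz, map_zero]
  have hconj1 : ∀ z : ℂ, ‖z‖ = 1 → conj z = z⁻¹ := fun z hz =>
    (Complex.inv_eq_conj hz).symm
  -- the minimal polynomial is reciprocal
  have hinv : ∀ z : ℂ, aeval z g = 0 → aeval z⁻¹ g = 0 := by
    have hrev0 : aeval z₀ g.reverse = 0 := by
      have h1 : z₀ ≠ 0 := hzero z₀ ((hmap z₀).2 hz₀)
      have := invertibleOfNonzero (inv_ne_zero h1)
      have h2 := (eval₂_reverse_eq_zero_iff (algebraMap ℚ ℂ) z₀⁻¹ g).2 (by
        rw [← aeval_def, ← hconj1 z₀ hz₀1]
        exact hc z₀ ((hmap z₀).2 hz₀))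
      rwa [invOf_eq_inv, inv_inv] at h2
    have hdvd : g ∣ g.reverse := by
      have h1 := minpoly.dvd ℚ z₀ hrev0
      rwa [hmin z₀ ((hmap z₀).2 hz₀)] at h1
    intro z hz
    obtain ⟨q, hq⟩ := hdvd
    have := invertibleOfNonzero (inv_ne_zero (hzero z hz))
    rw [aeval_def]
    refine (eval₂_reverse_eq_zero_iff (algebraMap ℚ ℂ) z⁻¹ g).1 ?_
    rw [invOf_eq_inv, inv_inv, ← aeval_def, hq, map_mul, hz, zero_mul]
  have hone : ∀ z : ℂ, aeval z g = 0 → z ≠ (θ : ℂ) → z ≠ (θ : ℂ)⁻¹ → ‖z‖ = 1 := by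
    intro z hz h1 h2
    refine le_antisymm (hconj z ((hmap z).1 hz) h1) ?_
    have h3 := hconj z⁻¹ ((hmap _).1 (hinv z hz)) fun e => h2 (by rw [← e, inv_inv])
    rw [norm_inv] at h3
    exact (inv_le_one₀ (norm_pos_iff.2 (hzero z hz))).1 h3
  have hθinv : (θ : ℂ) ≠ (θ : ℂ)⁻¹ := fun e => by
    have h1 := congrArg (fun w : ℂ => ‖w‖) e
    simp only [norm_inv, Complex.norm_real, Real.norm_eq_abs,
      abs_of_pos (by linarith : 0 < θ)] at h1
    have : θ * θ = 1 := by nth_rw 2 [h1]; exact mul_inv_cancel₀ hθ0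
    nlinarith
  have hθnorm : ‖(θ : ℂ)‖ = θ := by simp [abs_of_pos (by linarith : 0 < θ)]
  have him : ∀ z : ℂ, aeval z g = 0 → ‖z‖ = 1 → z.im ≠ 0 := by
    intro z hz hz1 e
    have hre : z = ((z.re : ℝ) : ℂ) := Complex.ext (by simp) (by simpa using e)
    have hq : ∃ q : ℚ, z = (q : ℂ) := by
      rw [hre, Complex.norm_real, Real.norm_eq_abs] at hz1
      rcases (abs_eq zero_le_one).1 hz1 with h | h
      · exact ⟨1, by rw [hre, h]; simp⟩
      · exact ⟨-1, by rw [hre, h]; simp⟩
    obtain ⟨q, rfl⟩ := hq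
    have h1 := hmin _ hz
    rw [show (q : ℂ) = algebraMap ℚ ℂ q from (eq_ratCast _ q).symm,
      minpoly.eq_X_sub_C] at h1
    have h2 := minpoly.aeval ℚ θ
    rw [← hg, ← h1, map_sub, aeval_X, aeval_C, eq_ratCast, sub_eq_zero] at h2
    have h3 : ‖(q : ℂ)‖ = θ := by rw [← hθnorm, h2, Complex.ofReal_ratCast]
    linarith
  set R := ((minpoly ℚ θ).aroots ℂ).toFinset with hR
  have hmem : ∀ z, z ∈ R ↔ aeval z g = 0 := fun z => by
    rw [hR, Multiset.mem_toFinset, mem_aroots, ← hg]
    exact and_iff_right hgm.ne_zero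
  set U := R.filter fun z => 0 < z.im with hU
  have hUroot : ∀ z ∈ U, aeval z g = 0 ∧ 0 < z.im ∧ ‖z‖ = 1 := fun z hz => by
    obtain ⟨h1, h2⟩ := mem_filter.1 hz
    refine ⟨(hmem z).1 h1, h2, hone z ((hmem z).1 h1) (fun e => ?_) fun e => ?_⟩
    · simp [e] at h2
    · simp [e] at h2
  have hR' : R = ({(θ : ℂ), (θ : ℂ)⁻¹} : Finset ℂ) ∪ (U ∪ U.image conj) := by
    ext z
    simp only [mem_union, mem_insert, mem_singleton, mem_image]
    constructor
    · intro hz
      by_cases h1 : z = (θ : ℂ)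
      · exact Or.inl (Or.inl h1)
      by_cases h2 : z = (θ : ℂ)⁻¹
      · exact Or.inl (Or.inr h2)
      have hg0 := (hmem z).1 hz
      rcases lt_or_gt_of_ne (him z hg0 (hone z hg0 h1 h2)) with h | h
      · exact Or.inr (Or.inr ⟨conj z, mem_filter.2 ⟨(hmem _).2 (hc z hg0), by simpa using h⟩,
          Complex.conj_conj z⟩)
      · exact Or.inr (Or.inl (mem_filter.2 ⟨hz, h⟩))
    · rintro ((rfl | rfl) | h | ⟨w, hw, rfl⟩)
      · exact (hmem _).2 hθroot
      · exact (hmem _).2 (hinv _ hθroot)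
      · exact (mem_filter.1 h).1
      · exact (hmem _).2 (hc w (hUroot w hw).1)
  have hUne : 0 < #U := by
    refine card_pos.2 ?_
    have hg0 := (hmap z₀).2 hz₀
    rcases lt_or_gt_of_ne (him z₀ hg0 hz₀1) with h | h
    · exact ⟨conj z₀, mem_filter.2 ⟨(hmem _).2 (hc z₀ hg0), by simpa using h⟩⟩
    · exact ⟨z₀, mem_filter.2 ⟨(hmem _).2 hg0, h⟩⟩
  let e := U.equivFin
  refine ⟨#U, hUne, fun i => Complex.arg (e.symm i : ℂ) / (2 * Real.pi), ?_, fun n => ?_⟩
  · -- independence
    intro m k hmk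
    funext i
    set z : Fin (#U) → ℂ := fun j => (e.symm j : ℂ) with hzdef
    have hzU : ∀ j, z j ∈ U := fun j => (e.symm j).2
    have hprod : ∏ j, z j ^ m j = 1 := by
      have h1 : ∀ j, z j = Complex.exp (Complex.arg (z j) * Complex.I) := fun j => by
        have := Complex.norm_mul_exp_arg_mul_I (z j)
        rw [(hUroot _ (hzU j)).2.2, Complex.ofReal_one, one_mul] at this
        exact this.symm
      rw [prod_congr rfl fun j _ => by rw [h1 j, ← Complex.exp_int_mul], ← Complex.exp_sum,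
        Complex.exp_eq_one_iff]
      refine ⟨k, ?_⟩
      have h2 : ∑ j, (m j : ℝ) * Complex.arg (z j) = k * (2 * Real.pi) := by
        rw [← hmk, sum_mul]
        refine sum_congr rfl fun j _ => ?_
        simp only [hzdef]
        field_simp
      have h3 := congrArg (fun x : ℝ => (x : ℂ) * Complex.I) h2
      push_cast at h3
      rw [sum_mul] at h3
      rw [show (k : ℂ) * (2 * Real.pi * Complex.I) = (k * (2 * Real.pi) : ℂ) * Complex.I by ring,
        ← h3]
      exact sum_congr rfl fun j _ => by ring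
    set K := IntermediateField.adjoin ℚ (g.rootSet ℂ) with hK
    have hn : Normal ℚ K := Normal.of_isSplittingField g
      (hFEp := IntermediateField.adjoin_rootSet_isSplittingField (IsAlgClosed.splits _))
    have hin : ∀ w : ℂ, aeval w g = 0 → w ∈ K := fun w hw =>
      IntermediateField.subset_adjoin ℚ _ (Polynomial.mem_rootSet.2 ⟨hgm.ne_zero, hw⟩)
    set y : Fin (#U) → K := fun j => ⟨z j, hin _ (hUroot _ (hzU j)).1⟩ with hy
    set θK : K := ⟨(θ : ℂ), hin _ hθroot⟩ with hθK
    have hroot : ∀ w : K, aeval (w : ℂ) g = 0 → aeval w g = 0 := fun w hw => by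
      refine (algebraMap K ℂ).injective ?_
      rw [map_zero, ← aeval_algebraMap_apply]
      exact hw
    have hmy : minpoly ℚ (y i) = g :=
      (minpoly.eq_of_irreducible_of_monic hgi (hroot (y i) (hUroot _ (hzU i)).1) hgm).symm
    obtain ⟨σ, hσ⟩ := minpoly.exists_algEquiv_of_root' (x := θK) (y := y i)
      (Algebra.IsAlgebraic.isAlgebraic (y i)) (by rw [hmy]; exact hroot θK hθroot)
    have hσ1 : ∀ j, j ≠ i → ‖((σ (y j) : K) : ℂ)‖ = 1 := by
      intro j hji
      have hg1 : aeval ((σ (y j) : K) : ℂ) g = 0 := by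
        have h1 := hroot (y j) (hUroot _ (hzU j)).1
        have h2 : aeval (σ (y j)) g = 0 := by
          rw [show σ (y j) = σ.toAlgHom (y j) from rfl, aeval_algHom_apply, h1, map_zero]
        rw [show ((σ (y j) : K) : ℂ) = algebraMap K ℂ (σ (y j)) from rfl, aeval_algebraMap_apply,
          h2, map_zero]
      refine hone _ hg1 (fun e1 => hji ?_) fun e1 => ?_
      · have h2 : y j = y i := σ.injective (Subtype.ext (e1.trans (by rw [hσ])))
        exact e.symm.injective (Subtype.ext (congrArg (fun w : K => (w : ℂ)) h2))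
      · have h2 : σ (y j) = σ ((y i)⁻¹) := by
          rw [map_inv₀, hσ]
          exact Subtype.ext (by simpa using e1)
        have h3 : z j = (z i)⁻¹ := by
          simpa using congrArg (fun w : K => (w : ℂ)) (σ.injective h2)
        have h4 := congrArg Complex.im h3
        rw [← hconj1 _ (hUroot _ (hzU i)).2.2, Complex.conj_im] at h4
        linarith [(hUroot _ (hzU i)).2.1, (hUroot _ (hzU j)).2.1]
    have hprodK : ∏ j, y j ^ m j = 1 := by
      refine (algebraMap K ℂ).injective ?_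
      rw [map_prod, map_one, ← hprod]
      exact prod_congr rfl fun j _ => map_zpow₀ _ _ _
    have h5 := congrArg (fun w : K => ‖algebraMap K ℂ (σ w)‖) hprodK
    simp only [map_prod, map_zpow₀, map_one, norm_prod, norm_zpow, norm_one] at h5
    rw [Finset.prod_eq_single i (fun j _ hji => by
        rw [show ‖algebraMap K ℂ (σ (y j))‖ = 1 from hσ1 j hji, one_zpow])
      (fun h => absurd (mem_univ i) h), hσ] at h5
    have h6 : θ ^ m i = 1 := by
      rw [show algebraMap K ℂ θK = (θ : ℂ) from rfl, hθnorm] at h5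
      exact h5
    rw [Pi.zero_apply]
    exact (zpow_eq_one_iff_right₀ (by linarith) (by linarith : θ ≠ 1)).1 h6
  · obtain ⟨m, hm⟩ := sum_pow_roots_int hint n
    refine ⟨m, ?_⟩
    rw [← hR, hR', sum_union, sum_pair hθinv, sum_union, sum_image] at hm
    rotate_left
    · exact fun a _ b _ hab => (starRingEnd ℂ).injective hab
    · rw [disjoint_left]
      intro w hw hw'
      obtain ⟨v, hv, rfl⟩ := Finset.mem_image.1 hw'
      have h1 := (hUroot _ hw).2.1
      rw [Complex.conj_im] at h1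
      linarith [(hUroot _ hv).2.1]
    · rw [disjoint_left]
      intro w hw hw'
      simp only [mem_insert, mem_singleton] at hw
      simp only [mem_union, mem_image] at hw'
      rcases hw' with h | ⟨v, hv, rfl⟩
      · have h1 := (hUroot _ h).2.1
        rcases hw with rfl | rfl <;> simp at h1
      · have h1 := (hUroot _ hv).2.1
        rcases hw with e1 | e1 <;>
          (have := congrArg Complex.im e1; simp at this; linarith)
    have hre := congrArg Complex.re hm
    simp only [Complex.add_re, Complex.re_sum, ← map_pow, Complex.conj_re, ← Complex.ofReal_pow,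
      ← Complex.ofReal_inv, Complex.ofReal_re, Complex.intCast_re, ← sum_add_distrib] at hre
    rw [← hre]
    congr 1
    rw [← Finset.sum_coe_sort U]
    refine Fintype.sum_equiv e.symm _ _ fun i => ?_
    set w : ℂ := (e.symm i : ℂ)
    have hw1 := (hUroot w (e.symm i).2).2.2
    have h1 := Complex.norm_mul_exp_arg_mul_I w
    rw [hw1, Complex.ofReal_one, one_mul] at h1
    conv_rhs => rw [← h1, ← Complex.exp_nat_mul]
    rw [show (n : ℂ) * ((Complex.arg w : ℂ) * Complex.I) = ((n * Complex.arg w : ℝ) : ℂ) *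
      Complex.I by push_cast; ring, Complex.exp_ofReal_mul_I_re, two_mul]
    congr 1 <;> · congr 1; simp only [w]; field_simp

end FA.SalemPowers

end
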