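import Fermat.Agent.KroneckerApprox.Torus
import Fermat.Agent.Equidistribution.Criterion
import Fermat.Agent.SalemPowers.Conjugates
import Mathlib.Analysis.Asymptotics.SpecificAsymptotics
import Mathlib.Analysis.Real.Pi.Bounds
import Mathlib.Analysis.SpecialFunctions.Trigonometric.Bounds
import Mathlib.NumberTheory.Real.Irrational

/-!
# The powers of a Salem number are not equidistributed

Otherwise all integrals of `e (h · 2 cos 2 π x)` vanish, and `2 cos (2 π n √2)` would be
equidistributed, whereas it lies in `[2 - ε, 2)` modulo one too often.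
-/

set_option autoImplicit false

noncomputable section

open Finset Filter Topology MeasureTheory
open FA.ThreePrimes (eAdd norm_eAdd eAdd_add eAdd_intCast eAdd_zero)

namespace FA.SalemPowers

/-- `2 cos 2 π x` on the circle. -/
def twoCos : C(AddCircle (1 : ℝ), ℝ) :=
  ⟨fun x => 2 * (fourier 1 x).re,
    continuous_const.mul (Complex.continuous_re.comp (fourier 1).continuous)⟩

theorem twoCos_coe (x : ℝ) : twoCos (x : AddCircle (1 : ℝ)) = 2 * Real.cos (2 * Real.pi * x) := by
  show 2 * (fourier 1 (x : AddCircle (1 : ℝ))).re = _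
  rw [fourier_coe_apply, show (2 * Real.pi * Complex.I * (1 : ℤ) * x / (1 : ℝ) : ℂ) =
    ((2 * Real.pi * x : ℝ) : ℂ) * Complex.I by push_cast; ring, Complex.exp_ofReal_mul_I_re]

theorem eAdd_sum {ι : Type*} (s : Finset ι) (f : ι → ℝ) :
    eAdd (∑ i ∈ s, f i) = ∏ i ∈ s, eAdd (f i) := by
  classical
  induction s using Finset.induction_on with
  | empty => simp [eAdd_zero]
  | insert a s ha ih => rw [sum_insert ha, prod_insert ha, eAdd_add, ih]

theorem continuous_eAdd : Continuous eAdd := by
  unfold eAdd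
  fun_prop

/-- `e (h · 2 cos 2 π x)`. -/
def wave (h : ℤ) : C(AddCircle (1 : ℝ), ℂ) :=
  ⟨fun x => eAdd (h * twoCos x), continuous_eAdd.comp (continuous_const.mul twoCos.continuous)⟩

/-- Not all of the integrals vanish. -/
theorem exists_integral_wave_ne_zero : ∃ h : ℤ, h ≠ 0 ∧ ∫ x, wave h x ≠ 0 := by
  classical
  by_contra hall
  push Not at hall
  set θ : Fin 1 → ℝ := fun _ => Real.sqrt 2 with hθ
  have hind : KroneckerApprox.IsIndependentWithOne θ := by
    intro m k hmk
    funext i
    rw [Subsingleton.elim i 0]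
    by_contra hm
    simp only [hθ, Fin.sum_univ_one] at hmk
    exact irrational_sqrt_two ⟨(k : ℚ) / (m 0 : ℚ), by
      push_cast
      rw [div_eq_iff (Int.cast_ne_zero.2 hm)]
      linarith⟩
  -- the sequence `2 cos (2 π n √2)` would be equidistributed
  set x : ℕ → ℝ := fun n => 2 * Real.cos (2 * Real.pi * (n * Real.sqrt 2)) with hx
  have hmean : Equidist.ExpMeanZero range x := by
    intro h hh
    have key := KroneckerApprox.tendsto_mean hind
      ⟨fun z => wave h (z 0), (wave h).continuous.comp (continuous_apply 0)⟩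
    have hint : ∫ z : UnitAddTorus (Fin 1), wave h (z 0) = ∫ y, wave h y := by
      have := integral_fintype_prod_volume_eq_prod (ι := Fin 1)
        (E := fun _ => AddCircle (1 : ℝ)) (fun _ y => wave h y)
      simpa using this
    simp only [ContinuousMap.coe_mk] at key
    rw [hint, hall h hh] at key
    refine key.congr fun N => ?_
    rw [Equidist.avg, card_range]
    congr 1
    refine sum_congr rfl fun q _ => ?_
    show eAdd (h * twoCos ((((q : ℝ) • θ) 0 : ℝ) : AddCircle (1 : ℝ))) = _
    rw [twoCos_coe]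
    simp [hθ, hx]
  have hcard : Tendsto (fun N => #(range N)) atTop atTop := by
    simp only [card_range]
    exact tendsto_id
  set ε : ℝ := 4 * Real.pi ^ 2 * (1 / 100) ^ 2 with hε
  have hπ : Real.pi ^ 2 < 12 := by nlinarith [Real.pi_lt_d2, Real.pi_gt_three]
  have hε1 : ε < 1 / 200 := by rw [hε]; nlinarith
  have hε0 : 0 < ε := by positivity
  have h1 := hmean.intervalMean hcard (1 - ε) 1 (by linarith) (by linarith) le_rfl
  -- the multiples of `√2` near zero
  set y : ℕ → ℝ := fun n => n * Real.sqrt 2 with hy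
  have hymean : Equidist.ExpMeanZero range y := by
    intro h hh
    have key := KroneckerApprox.tendsto_mean hind
      ⟨fun z => fourier h (z 0), (fourier h).continuous.comp (continuous_apply 0)⟩
    have hint : ∫ z : UnitAddTorus (Fin 1), fourier h (z 0) = 0 := by
      have := integral_fintype_prod_volume_eq_prod (ι := Fin 1)
        (E := fun _ => AddCircle (1 : ℝ)) (fun _ z => fourier h z)
      simp only [Fin.prod_univ_one] at this
      rw [this]
      have h0 := Equidist.circMean_fourier h
      rw [if_neg hh, Equidist.circMean, AddCircle.integral_haarAddCircle, inv_one, one_smul] at h0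
      exact h0
    simp only [ContinuousMap.coe_mk] at key
    rw [hint] at key
    refine key.congr fun N => ?_
    rw [Equidist.avg, card_range]
    congr 1
    refine sum_congr rfl fun q _ => ?_
    show fourier h ((((q : ℝ) • θ) 0 : ℝ) : AddCircle (1 : ℝ)) = _
    rw [Equidist.fourier_coe_eq_eAdd]
    simp [hθ, hy]
  have h2 := hymean.intervalMean hcard (1 / 200) (1 / 100) (by norm_num) (by norm_num)
    (by norm_num)
  have hle : ∀ N, (#((range N).filter fun n => Int.fract (y n) ∈ Set.Ico (1 / 200 : ℝ) (1 / 100))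
      : ℝ) / #(range N) ≤
      (#((range N).filter fun n => Int.fract (x n) ∈ Set.Ico (1 - ε) 1) : ℝ) / #(range N) := by
    intro N
    refine div_le_div_of_nonneg_right (Nat.cast_le.2 (card_le_card fun n hn => ?_))
      (Nat.cast_nonneg _)
    obtain ⟨hnN, hf1, hf2⟩ := mem_filter.1 hn
    set f := Int.fract (y n) with hf
    have hxf : x n = 2 * Real.cos (2 * Real.pi * f) := by
      simp only [hx, hf, Int.fract, hy]
      rw [mul_sub, mul_comm (2 * Real.pi) (⌊(n : ℝ) * Real.sqrt 2⌋ : ℝ),
        Real.cos_sub_int_mul_two_pi]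
    have hc1 : 1 - (2 * Real.pi * f) ^ 2 / 2 ≤ Real.cos (2 * Real.pi * f) :=
      Real.one_sub_sq_div_two_le_cos
    have hc2 : Real.cos (2 * Real.pi * f) < 1 := by
      refine lt_of_le_of_ne (Real.cos_le_one _) fun e => ?_
      obtain ⟨k, hk⟩ := (Real.cos_eq_one_iff _).1 e
      have h3 : (k : ℝ) = f := mul_right_cancel₀ Real.two_pi_pos.ne' (by linarith)
      have h4 : (0 : ℤ) < k := by exact_mod_cast (by linarith : (0 : ℝ) < k)
      have h5 : k < (1 : ℤ) := by exact_mod_cast (by linarith : (k : ℝ) < 1)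
      omega
    have hx1 : 2 - ε ≤ x n := by
      have : (2 * Real.pi * f) ^ 2 ≤ (2 * Real.pi * (1 / 100)) ^ 2 :=
        pow_le_pow_left₀ (by positivity) (by nlinarith [Real.pi_pos]) 2
      rw [hxf, hε]
      nlinarith
    have hx2 : x n < 2 := by rw [hxf]; linarith
    have hfl : ⌊x n⌋ = 1 :=
      Int.floor_eq_iff.2 ⟨by push_cast; linarith, by push_cast; linarith⟩
    refine mem_filter.2 ⟨hnN, ?_⟩
    rw [Int.fract, hfl]
    push_cast
    exact ⟨by linarith, by linarith⟩
  have := le_of_tendsto_of_tendsto' h2 h1 hle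
  linarith

/-- **The powers are not equidistributed.** -/
theorem powers_not_equidistributed {θ : ℝ} (h : IsSalem θ) :
    ¬Equidist.IntervalMean range (fun n => θ ^ n) := by
  intro hint
  obtain ⟨s, -, t, hind, hsum⟩ := exists_angles h
  obtain ⟨k, hk, hJ⟩ := exists_integral_wave_ne_zero
  have hmean := hint.expMeanZero (-k) (neg_ne_zero.2 hk)
  -- the torus mean
  have key := KroneckerApprox.tendsto_mean hind
    ⟨fun z => ∏ i, wave k (z i),
      continuous_finsetProd _ fun i _ => (wave k).continuous.comp (continuous_apply i)⟩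
  have hvol : ∫ z : UnitAddTorus (Fin s), ∏ i, wave k (z i) = (∫ x, wave k x) ^ s := by
    have := integral_fintype_prod_volume_eq_pow (ι := Fin s) (E := AddCircle (1 : ℝ))
      (fun x => wave k x)
    rwa [Fintype.card_fin] at this
  simp only [ContinuousMap.coe_mk] at key
  rw [hvol] at key
  set A : ℕ → ℂ := fun n => ∏ i, wave k (KroneckerApprox.torPoint ((n : ℝ) • t) i) with hA
  have hdiff : Tendsto (fun n => eAdd ((-k : ℤ) * θ ^ n) - A n) atTop (𝓝 0) := by
    have hval : ∀ n, A n = eAdd ((-k : ℤ) * θ ^ n) * eAdd ((-k : ℤ) * θ⁻¹ ^ n) := fun n => by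
      obtain ⟨m, hm⟩ := hsum n
      have h1 : A n = eAdd (k * ∑ i, 2 * Real.cos (2 * Real.pi * (n * t i))) := by
        rw [hA, mul_sum, eAdd_sum]
        refine prod_congr rfl fun i _ => ?_
        show eAdd (k * twoCos ((((n : ℝ) • t) i : ℝ) : AddCircle (1 : ℝ))) = _
        rw [twoCos_coe]
        rfl
      rw [h1, ← eAdd_add, show (k : ℝ) * ∑ i, 2 * Real.cos (2 * Real.pi * (n * t i)) =
        ((-k : ℤ) * θ ^ n + (-k : ℤ) * θ⁻¹ ^ n) + ((k * m : ℤ) : ℝ) by
          push_cast; linear_combination (k : ℝ) * hm, eAdd_add _ ((k * m : ℤ) : ℝ), eAdd_intCast,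
        mul_one]
    have hsmall : Tendsto (fun n => eAdd ((-k : ℤ) * θ⁻¹ ^ n)) atTop (𝓝 1) := by
      have h1 := ((tendsto_pow_atTop_nhds_zero_of_lt_one (inv_nonneg.2 (by linarith [h.1]))
        (inv_lt_one_of_one_lt₀ h.1)).const_mul ((-k : ℤ) : ℝ))
      rw [mul_zero] at h1
      have h2 := (continuous_eAdd.tendsto 0).comp h1
      rwa [eAdd_zero] at h2
    have h3 := (tendsto_zero_iff_norm_tendsto_zero.1 (by
      simpa using hsmall.const_sub (1 : ℂ) :
        Tendsto (fun n => 1 - eAdd ((-k : ℤ) * θ⁻¹ ^ n)) atTop (𝓝 0)))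
    refine squeeze_zero_norm (fun n => le_of_eq ?_) h3
    rw [hval, ← mul_one_sub, norm_mul, norm_eAdd, one_mul]
  have hces := hdiff.cesaro_smul
  have hlim := hmean.sub key
  have : Tendsto (fun N : ℕ => (∑ q ∈ range N, (eAdd ((-k : ℤ) * θ ^ q) - A q)) / (N : ℂ)) atTop
      (𝓝 (0 - (∫ x, wave k x) ^ s)) := by
    refine hlim.congr fun N => ?_
    simp only [Equidist.avg, card_range, sum_sub_distrib, sub_div, hA]
  have h0 := tendsto_nhds_unique this (hces.congr fun N => by
    rw [Complex.real_smul]
    push_cast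
    ring)
  rw [zero_sub, neg_eq_zero] at h0
  exact hJ (pow_eq_zero_iff'.1 h0).1

end FA.SalemPowers

end
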