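import Fermat.Agent.KroneckerApprox.Torus
import Fermat.Agent.SalemPowers.Conjugates
import Mathlib.Analysis.SpecialFunctions.Trigonometric.Bounds
import Mathlib.Analysis.SpecialFunctions.Trigonometric.Inverse

/-!
# The powers of a Salem number are dense modulo one
-/

set_option autoImplicit false

noncomputable section

open Finset Filter Topology

namespace FA.SalemPowers

open KroneckerApprox in
/-- **Density.** -/
theorem powers_dense {θ : ℝ} (h : IsSalem θ) {u v : ℝ} (hu : 0 ≤ u) (huv : u < v) (hv : v ≤ 1)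
    (T : ℕ) : ∃ n, T ≤ n ∧ Int.fract (θ ^ n) ∈ Set.Ioo u v := by
  obtain ⟨s, hs, t, hind, hsum⟩ := exists_angles h
  have hθ := h.1
  set y := (u + v) / 2 with hy
  set γ := (v - u) / 2 with hγ
  have hγ0 : 0 < γ := by rw [hγ]; linarith
  set α : Fin s → ℝ := fun i => if (i : ℕ) = 0 then Real.arccos (-y / 2) / (2 * Real.pi) else 1 / 4
    with hα
  have hval : ∑ i, 2 * Real.cos (2 * Real.pi * α i) = -y := by
    rw [sum_eq_single (⟨0, hs⟩ : Fin s)]
    · simp only [hα, if_true]
      rw [mul_div_cancel₀ _ (by positivity : (2 * Real.pi) ≠ 0),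
        Real.cos_arccos (by linarith) (by linarith)]
      ring
    · intro i _ hi
      have : (i : ℕ) ≠ 0 := fun e => hi (Fin.ext e)
      simp only [hα, if_neg this]
      rw [show 2 * Real.pi * (1 / 4) = Real.pi / 2 by ring, Real.cos_pi_div_two, mul_zero]
    · exact fun h => absurd (mem_univ _) h
  set ε := γ / (2 * (4 * Real.pi * s + 1)) with hε
  have hε0 : 0 < ε := by positivity
  have hr : θ⁻¹ < 1 := inv_lt_one_of_one_lt₀ hθ
  obtain ⟨T', hT'⟩ := eventually_atTop.1
    ((tendsto_pow_atTop_nhds_zero_of_lt_one (inv_nonneg.2 (by linarith)) hr).eventually_lt_const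
      (half_pos hγ0))
  obtain ⟨n, hn, p, hp⟩ := exists_approx hind α hε0 (max T T')
  refine ⟨n, le_trans (le_max_left _ _) hn, ?_⟩
  obtain ⟨m, hm⟩ := hsum n
  have hcos : ∀ i, |2 * Real.cos (2 * Real.pi * (n * t i)) - 2 * Real.cos (2 * Real.pi * α i)| ≤
      4 * Real.pi * ε := fun i => by
    rw [← Real.cos_sub_int_mul_two_pi (2 * Real.pi * (n * t i)) (p i), ← mul_sub, abs_mul, abs_two]
    calc 2 * |Real.cos (2 * Real.pi * (n * t i) - p i * (2 * Real.pi)) -
          Real.cos (2 * Real.pi * α i)|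
        ≤ 2 * |(2 * Real.pi * (n * t i) - p i * (2 * Real.pi)) - 2 * Real.pi * α i| :=
          mul_le_mul_of_nonneg_left (Real.abs_cos_sub_cos_le _ _) zero_le_two
      _ = 4 * Real.pi * |n * t i - p i - α i| := by
          rw [show (2 * Real.pi * (n * t i) - p i * (2 * Real.pi)) - 2 * Real.pi * α i =
            2 * Real.pi * (n * t i - p i - α i) by ring, abs_mul,
            abs_of_pos Real.two_pi_pos]
          ring
      _ ≤ 4 * Real.pi * ε := mul_le_mul_of_nonneg_left (hp i).le (by positivity)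
  have hclose : |θ ^ n - m - y| < γ := by
    have h1 : θ ^ n - m - y = -θ⁻¹ ^ n -
        ∑ i, (2 * Real.cos (2 * Real.pi * (n * t i)) - 2 * Real.cos (2 * Real.pi * α i)) := by
      rw [sum_sub_distrib, hval]
      linarith
    rw [h1]
    refine lt_of_le_of_lt ((abs_sub _ _).trans (add_le_add (le_of_eq (abs_neg _))
      ((abs_sum_le_sum_abs _ _).trans (sum_le_sum fun i _ => hcos i)))) ?_
    rw [sum_const, card_univ, Fintype.card_fin, nsmul_eq_mul,
      abs_of_pos (pow_pos (inv_pos.2 (by linarith)) n : (0 : ℝ) < θ⁻¹ ^ n)]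
    have h2 := hT' n (le_trans (le_max_right _ _) hn)
    have h3 : (s : ℝ) * (4 * Real.pi * ε) ≤ γ / 2 := by
      rw [hε]
      field_simp
      linarith
    linarith
  obtain ⟨h1, h2⟩ := abs_lt.1 hclose
  have hfl : ⌊θ ^ n⌋ = m := Int.floor_eq_iff.2 ⟨by linarith, by linarith⟩
  rw [Int.fract, hfl]
  exact ⟨by linarith, by linarith⟩

end FA.SalemPowers

end
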